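/-
S36, modular part (sub-architect helper156).  (task S36-MOD-VAL2a)

LEVEL `N0 q q` OVER LEVEL `N0 q`: completeness.  `complete2oo` is the first conclusion of the
application of `Count.count` made in `HalfInst/Main.count_V11` (copy that proof and keep `key.1`).
`complete20`: `Count.count` with `V₀ = V10`, one valuation `V02`, `a = 1`, `b = q`, `τ = q`,
`y s = J_{q²} ^ s` (`r02 (J_{q²}) = jb 1` has order `-1`, `r02 (al1 c)` is a series in `t^q`
(`Table/Res.r02_al1` or `HalfInst/Comap.res_e02_al1`), `ThetaField.indep_pow`).
-/
import Fermat.Agent.S36.Mod.Val.Level1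

set_option autoImplicit false
set_option linter.unusedSectionVars false

noncomputable section

namespace Fermat.Agent.S36.Mod.Setup

open ModularCurve Fermat.Agent.S24 Fermat.Agent.S18 Fermat.Agent.S36.Norm

variable {K K' : Type*} [Field K] [Field K'] [Algebra ℚ K] [Algebra ℚ K'] [Algebra K Kbar]
  [Algebra K' Kbar] (S : Setup K K')

theorem complete2oo (W : ValuationSubring S.F2) (hW : W.comap S.al1.toRingHom = S.V1oo) :
    W = S.V20 ∨ W = S.V11 :=
  S.complete_al1_oo W hW

theorem complete20 (W : ValuationSubring S.F2) (hW : W.comap S.al1.toRingHom = S.V10) :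
    W = S.V02 :=
  S.complete_al1_0 W hW

end Fermat.Agent.S36.Mod.Setup

end
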