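/-
S36, modular part (sub-architect helper156).  (task S36-MOD-VAL2b)

LEVEL `N0 q q` OVER LEVEL `N0 q`: completeness.  `complete2oo` is the first conclusion of the
application of `Count.count` made in `HalfInst/Main.count_V11` (copy that proof and keep `key.1`).
`complete20`: `Count.count` with `V₀ = V10`, one valuation `V02`, `a = 1`, `b = q`, `τ = q`,
`y s = J_{q²} ^ s` (`r02 (J_{q²}) = jb 1` has order `-1`, `r02 (al1 c)` is a series in `t^q`
(`Table/Res.r02_al1` or `HalfInst/Comap.res_e02_al1`), `ThetaField.indep_pow`).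
-/
import Fermat.Agent.S36.Mod.Val.Level2a

set_option autoImplicit false
set_option linter.unusedSectionVars false

noncomputable section

namespace Fermat.Agent.S36.Mod.Setup

open ModularCurve Fermat.Agent.S24 Fermat.Agent.S18 Fermat.Agent.S36.Norm

variable {K K' : Type*} [Field K] [Field K'] [Algebra ℚ K] [Algebra ℚ K'] [Algebra K Kbar]
  [Algebra K' Kbar] (S : Setup K K')

-- `V20_ne_V02 : S.V20 ≠ S.V02` is PROVED in `HalfInst/Complete.lean` (imported).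

omit [Algebra ℚ K] [Algebra ℚ K'] [Algebra K Kbar] [Algebra K' Kbar] in
/-- abstract form of `V11_comap_w2`. -/
theorem V11_comap_w2_aux {R F₁ F₂ : Type*} [CommSemiring R] [Field F₁] [Field F₂] [Algebra R F₁]
    [Algebra R F₂] (w₂ : F₂ →ₐ[R] F₂) (w₁ : F₁ →ₐ[R] F₁) (a b : F₁ →ₐ[R] F₂)
    (hwa : ∀ f, w₂ (a f) = b (w₁ f)) (hwb : ∀ f, w₂ (b f) = a (w₁ f))
    (U₂ U₁ : ValuationSubring F₂) (Voo Vo : ValuationSubring F₁)
    (h1a : U₁.comap a.toRingHom = Voo) (h1b : U₁.comap b.toRingHom = Vo)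
    (h2b : U₂.comap b.toRingHom = Voo)
    (hoo : Voo.comap w₁.toRingHom = Vo) (ho : Vo.comap w₁.toRingHom = Voo) (hne : Voo ≠ Vo)
    (hcomp : ∀ W : ValuationSubring F₂, W.comap a.toRingHom = Voo → W = U₂ ∨ W = U₁) :
    U₁.comap w₂.toRingHom = U₁ := by
  have e1a : ∀ y, a y ∈ U₁ ↔ y ∈ Voo := fun y => by rw [← h1a]; rfl
  have e1b : ∀ y, b y ∈ U₁ ↔ y ∈ Vo := fun y => by rw [← h1b]; rfl
  have eoo : ∀ y, w₁ y ∈ Voo ↔ y ∈ Vo := fun y => by rw [← hoo]; rfl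
  have eo : ∀ y, w₁ y ∈ Vo ↔ y ∈ Voo := fun y => by rw [← ho]; rfl
  have hA : (U₁.comap w₂.toRingHom).comap a.toRingHom = Voo := by
    ext x
    show w₂ (a x) ∈ U₁ ↔ x ∈ Voo
    rw [hwa, e1b, eo]
  have hB : (U₁.comap w₂.toRingHom).comap b.toRingHom = Vo := by
    ext x
    show w₂ (b x) ∈ U₁ ↔ x ∈ Vo
    rw [hwb, e1a, eoo]
  rcases hcomp _ hA with h | h
  · exfalso
    apply hne
    rw [← h2b, ← h, hB]
  · exact h

/-- `V11.comap w2` restricts to `V1oo` along `al1` (`w2 ∘ al1 = be1 ∘ w1`, `V11_comap_be1`,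
`V10_comap_w1`), hence is `V20` or `V11`; it restricts to `V10` along `be1`
(`w2 ∘ be1 = al1 ∘ w1`), and `V20` restricts to `V1oo`. -/
theorem V11_comap_w2 : S.V11.comap S.w2.toRingHom = S.V11 :=
  V11_comap_w2_aux S.w2 S.w1 S.al1 S.be1 S.w2_al1 S.w2_be1 S.V20 S.V11 S.V1oo S.V10
    S.V11_comap_al1 S.V11_comap_be1 S.V20_comap_be1 S.V1oo_comap_w1 S.V10_comap_w1 S.V1oo_ne_V10
    S.complete2oo

end Fermat.Agent.S36.Mod.Setup

end
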