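/-
S36, modular part (sub-architect helper156).  BLOCK VAL: the statements of helper98's contract
(`BAD/Model/WIP/Instance.lean`, section VAL), verbatim, from `Val/Level1`, `Val/Level2`, `HalfInst`.
-/
import Fermat.Agent.S36.Mod.Val.Level2

set_option autoImplicit false
set_option linter.unusedSectionVars false

noncomputable section

namespace Fermat.Agent.S36.Mod.Setup

open ModularCurve Fermat.Agent.S24 Fermat.Agent.S18 Fermat.Agent.S36.Norm Fermat.Agent.S36

variable {K K' : Type*} [Field K] [Field K'] [Algebra ℚ K] [Algebra ℚ K'] [Algebra K Kbar]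
  [Algebra K' Kbar] (S : Setup K K')

/-- abstract form (bare `rfl` at the level of `S.F2` makes the kernel time out). -/
theorem comap_comp_aux {R F₀ F₁ F₂ : Type*} [CommSemiring R] [Field F₀] [Field F₁] [Field F₂]
    [Algebra R F₀] [Algebra R F₁] [Algebra R F₂] (W : ValuationSubring F₂) (ψ : F₁ →ₐ[R] F₂)
    (φ : F₀ →ₐ[R] F₁) :
    W.comap ((ψ.comp φ : F₀ →ₐ[R] F₂) : F₀ →+* F₂) = (W.comap ψ.toRingHom).comap φ.toRingHom :=
  rfl

theorem comap_invol_aux {R F : Type*} [CommSemiring R] [Field F] [Algebra R F]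
    (W : ValuationSubring F) (w : F →ₐ[R] F) (hw : ∀ x, w (w x) = x) :
    (W.comap w.toRingHom).comap w.toRingHom = W := by
  ext x
  show w (w x) ∈ W ↔ x ∈ W
  rw [hw]

theorem comap_congr_aux {R F₀ F : Type*} [CommSemiring R] [Field F₀] [Field F] [Algebra R F₀]
    [Algebra R F] (W : ValuationSubring F) (w : F →ₐ[R] F) (a b : F₀ →ₐ[R] F)
    (h : ∀ x, w (a x) = b x) :
    (W.comap w.toRingHom).comap (a : F₀ →+* F) = W.comap (b : F₀ →+* F) := by
  ext x
  show w (a x) ∈ W ↔ b x ∈ W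
  rw [h]

theorem comap_ia (W : ValuationSubring S.F2) :
    W.comap (S.ia : S.F0 →+* S.F2) = (W.comap S.al1.toRingHom).comap S.al0.toRingHom :=
  comap_comp_aux W S.al1 S.al0

theorem comap_ib (W : ValuationSubring S.F2) :
    W.comap (S.ib : S.F0 →+* S.F2) = (W.comap S.be1.toRingHom).comap S.be0.toRingHom :=
  comap_comp_aux W S.be1 S.be0

theorem comap_a : ∀ c, (S.VV c).comap (S.ia : S.F0 →+* S.F2) = S.V0 := by
  intro c
  rw [comap_ia]
  fin_cases c
  · show (S.V20.comap _).comap _ = _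
    rw [S.V20_comap_al1, S.V1oo_comap_al0]
  · show (S.V11.comap _).comap _ = _
    rw [S.V11_comap_al1, S.V1oo_comap_al0]
  · show (S.V02.comap _).comap _ = _
    rw [S.V02_comap_al1, S.V10_comap_al0]

theorem comap_b : ∀ c, (S.VV c).comap (S.ib : S.F0 →+* S.F2) = S.V0 := by
  intro c
  rw [comap_ib]
  fin_cases c
  · show (S.V20.comap _).comap _ = _
    rw [S.V20_comap_be1, S.V1oo_comap_be0]
  · show (S.V11.comap _).comap _ = _
    rw [S.V11_comap_be1, S.V10_comap_be0]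
  · show (S.V02.comap _).comap _ = _
    rw [S.V02_comap_be1, S.V10_comap_be0]

theorem complete_a : ∀ W : ValuationSubring S.F2, W.comap (S.ia : S.F0 →+* S.F2) = S.V0 →
    ∃ c, W = S.VV c := by
  intro W hW
  rw [comap_ia] at hW
  rcases S.complete1 _ hW with h | h
  · rcases S.complete2oo W h with h | h
    · exact ⟨0, h⟩
    · exact ⟨1, h⟩
  · exact ⟨2, S.complete20 W h⟩

theorem comap_w2_comap_w2 (W : ValuationSubring S.F2) :
    (W.comap S.w2.toRingHom).comap S.w2.toRingHom = W :=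
  comap_invol_aux W S.w2 S.w2_w2

theorem complete_b : ∀ W : ValuationSubring S.F2, W.comap (S.ib : S.F0 →+* S.F2) = S.V0 →
    ∃ c, W = S.VV c := by
  intro W hW
  have h1 : (W.comap S.w2.toRingHom).comap (S.ia : S.F0 →+* S.F2) = S.V0 := by
    rw [← hW]
    exact comap_congr_aux W S.w2 S.ia S.ib S.w2_ia
  obtain ⟨c, hc⟩ := S.complete_a _ h1
  have h2 : W = (S.VV c).comap S.w2.toRingHom := by
    rw [← hc, comap_w2_comap_w2]
  fin_cases c
  · exact ⟨2, h2.trans S.V20_comap_w2⟩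
  · exact ⟨1, h2.trans S.V11_comap_w2⟩
  · exact ⟨0, h2.trans S.V02_comap_w2⟩

theorem VV_injective : Function.Injective S.VV := by
  intro i j hij
  fin_cases i <;> fin_cases j
  · rfl
  · exact absurd hij S.V20_ne_V11
  · exact absurd hij S.V20_ne_V02
  · exact absurd hij.symm S.V20_ne_V11
  · rfl
  · exact absurd hij.symm S.V02_ne_V11
  · exact absurd hij.symm S.V20_ne_V02
  · exact absurd hij S.V02_ne_V11
  · rfl

theorem unif0 : IsUnif (S.VV 0) ((S.q : ℕ) : S.F2) := S.isUnif_V20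

theorem unif1 : IsUnif (S.VV 1) S.tau0 := S.isUnif_V11

theorem unif2 : IsUnif (S.VV 2) ((S.q : ℕ) : S.F2) := S.isUnif_V02

theorem ram1 : (S.VV 1).valuation S.tau0 ^ (S.q - 1) = (S.VV 1).valuation ((S.q : ℕ) : S.F2) :=
  S.ram_V11

/-- abstract step: density in a tower. -/
theorem dense_tower {F₀ F₁ F₂ : Type*} [Field F₀] [Field F₁] [Field F₂] (φ : F₀ →+* F₁)
    (ψ : F₁ →+* F₂) (W : ValuationSubring F₂) (U : ValuationSubring F₁) (hU : W.comap ψ = U)
    (h2 : ∀ y ∈ W, ∃ y' ∈ ψ.fieldRange, W.valuation (y' - y) < 1)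
    (h1 : ∀ y ∈ U, ∃ r : F₀, U.valuation (φ r - y) < 1) :
    ∀ y ∈ W, ∃ r : F₀, W.valuation (ψ (φ r) - y) < 1 := by
  intro y hy
  obtain ⟨y', ⟨y₁, rfl⟩, hy'⟩ := h2 y hy
  have hmem : ψ y₁ ∈ W := by
    have h3 : ψ y₁ - y ∈ W := (W.valuation_le_one_iff _).1 hy'.le
    have := W.add_mem _ _ h3 hy
    simpa using this
  have hy₁ : y₁ ∈ U := by rw [← hU]; exact hmem
  obtain ⟨r, hr⟩ := h1 y₁ hy₁
  refine ⟨r, ?_⟩
  have h4 : W.valuation (ψ (φ r - y₁)) < 1 := by
    have h5 : φ r - y₁ ∈ U.nonunits := hr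
    rw [IntEmb.mem_nonunits_iff_aux] at h5
    show ψ (φ r - y₁) ∈ W.nonunits
    rw [IntEmb.mem_nonunits_iff_aux]
    rcases h5 with h5 | h5
    · left; rw [h5, map_zero]
    · right
      rw [← map_inv₀]
      intro h6
      exact h5 (by rw [← hU]; exact h6)
  have h7 : ψ (φ r) - y = ψ (φ r - y₁) + (ψ y₁ - y) := by
    rw [map_sub]; ring
  rw [h7]
  exact Valuation.map_add_lt _ h4 hy'

theorem dense0a : ∀ y ∈ S.VV 0, ∃ y' : S.F0, (S.VV 0).valuation (S.ia y' - y) < 1 :=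
  dense_tower S.al0.toRingHom S.al1.toRingHom S.V20 S.V1oo S.V20_comap_al1 S.halfα.dense_a
    S.dense1oo

theorem dense1a : ∀ y ∈ S.VV 1, ∃ y' : S.F0, (S.VV 1).valuation (S.ia y' - y) < 1 :=
  dense_tower S.al0.toRingHom S.al1.toRingHom S.V11 S.V1oo S.V11_comap_al1 S.halfα.dense_m
    S.dense1oo

theorem dense1b : ∀ y ∈ S.VV 1, ∃ y' : S.F0, (S.VV 1).valuation (S.ib y' - y) < 1 :=
  dense_tower S.be0.toRingHom S.be1.toRingHom S.V11 S.V10 S.V11_comap_be1 S.halfβ.dense_m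
    S.dense10

theorem dense2b : ∀ y ∈ S.VV 2, ∃ y' : S.F0, (S.VV 2).valuation (S.ib y' - y) < 1 :=
  dense_tower S.be0.toRingHom S.be1.toRingHom S.V02 S.V10 S.V02_comap_be1 S.halfβ.dense_a
    S.dense10

end Fermat.Agent.S36.Mod.Setup

end
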