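/-
S36, modular part (sub-architect helper156).  (task S36-MOD-VAL3, proofs: helper205)

The congruences between `j(z)`, `j(q z)`, `j(q² z)` at the three vertical valuations:
helper98's `cusp0`, `cusp1`, `cusp2` and the six congruences + units of helper38's `CuspData`.
All from `Table/Gen.lean` (`r20_JK`, `r11_JK`, `r11_JK'`, `r02_JK`, `jb_q_mul`, `jb_ne_zero`) and
`Table/Res.lean` (`r*_eq_zero_iff`): `x - y ∈ nonunits ↔ r x = r y`
(via the residues computed in `Inst/Cusp/Cong.lean`).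
-/
import Fermat.Agent.S36.Mod.VV
import Fermat.Agent.S36.Mod.Table
import Fermat.Agent.S36.Mod.HalfInst.Insep
import Fermat.Agent.S36.Inst.Cusp.Cong

set_option autoImplicit false
set_option linter.unusedSectionVars false

noncomputable section

namespace Fermat.Agent.S36.Mod.Setup

open ModularCurve Fermat.Agent.S24 Fermat.Agent.S18

variable {K K' : Type*} [Field K] [Field K'] [Algebra ℚ K] [Algebra ℚ K'] [Algebra K Kbar]
  [Algebra K' Kbar] (S : Setup K K')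

/-- `j(q z)` at level `N0 q q` -/
def J2q : S.F2 := JK K (S.N0 * S.q * S.q) (1 * S.q)
  (Dvd.dvd.mul_right (Nat.mul_dvd_mul (one_dvd _) dvd_rfl) _)

theorem valCusp_J2q_eq : S.J2q = Fermat.Agent.S36.Inst.J2q S := rfl

theorem valCusp_j0_eq : S.j0 = JK K S.N0 1 (one_dvd _) :=
  Subtype.ext (congrArg (coeffEmb K) (qExpand_one_apply jq).symm)

theorem valCusp_al0_j0 : S.al0 S.j0 = S.J1one := by
  rw [valCusp_j0_eq]
  exact al_JK S.N0 S.q 1 _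

theorem valCusp_be0_j0 : S.be0 S.j0 = S.J1q := by
  have h1 : S.q * 1 ∣ S.N0 * S.q := by rw [Nat.mul_one]; exact Dvd.intro_left _ rfl
  have e1 : S.be0 S.j0 = JK K (S.N0 * S.q) (S.q * 1) h1 := by
    rw [valCusp_j0_eq]
    exact be_JK S.N0 S.q 1 _ h1
  rw [e1]
  exact JK_congr K _ (Nat.mul_comm _ _) _ _

theorem ia_j0 : S.ia S.j0 = S.J2one := by
  rw [ia_apply, valCusp_al0_j0]
  exact al_JK (S.N0 * S.q) S.q 1 _

theorem ib_j0 : S.ib S.j0 = S.J2qq := by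
  have h1 : S.q * (1 * S.q) ∣ S.N0 * S.q * S.q := by
    rw [Nat.one_mul, Nat.mul_assoc]; exact Dvd.intro_left _ rfl
  have e1 : S.be1 S.J1q = JK K (S.N0 * S.q * S.q) (S.q * (1 * S.q)) h1 :=
    be_JK (S.N0 * S.q) S.q (1 * S.q) _ h1
  rw [ib_apply, valCusp_be0_j0, e1]
  exact JK_congr K _ (by ring) _ _

theorem al1_be0_j0 : S.al1 (S.be0 S.j0) = S.J2q := by
  rw [valCusp_be0_j0]
  exact al_JK (S.N0 * S.q) S.q (1 * S.q) _

/-- `j`, `j'`, `j''` are units at the three valuations. -/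
theorem J2one_unit : ∀ c, (S.VV c).valuation S.J2one = 1 := by
  intro c
  fin_cases c
  · exact cuspAux_val_eq_one S.r20 S.r20_eq_zero_iff S.ci_J2one_mem20
      (by rw [ci_r20_J2one]; exact S.jb_ne_zero 1)
  · exact cuspAux_val_eq_one S.r11 S.r11_eq_zero_iff S.ci_J2one_mem11
      (by rw [ci_r11_J2one]; exact S.jb_ne_zero 1)
  · exact cuspAux_val_eq_one S.r02 S.r02_eq_zero_iff S.ci_J2one_mem02
      (by rw [ci_r02_J2one]; exact pow_ne_zero _ (S.ci_jb_one_pow_ne_zero _))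

theorem J2q_unit : ∀ c, (S.VV c).valuation S.J2q = 1 := by
  intro c
  rw [valCusp_J2q_eq]
  fin_cases c
  · exact cuspAux_val_eq_one S.r20 S.r20_eq_zero_iff S.ci_J2q_mem20
      (by rw [ci_r20_J2q]; exact S.ci_jb_one_pow_ne_zero _)
  · exact cuspAux_val_eq_one S.r11 S.r11_eq_zero_iff S.ci_J2q_mem11
      (by rw [ci_r11_J2q]; exact S.ci_jb_one_pow_ne_zero _)
  · exact cuspAux_val_eq_one S.r02 S.r02_eq_zero_iff S.ci_J2q_mem02
      (by rw [ci_r02_J2q]; exact S.ci_jb_one_pow_ne_zero _)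

theorem J2qq_unit : ∀ c, (S.VV c).valuation S.J2qq = 1 := by
  intro c
  fin_cases c
  · exact cuspAux_val_eq_one S.r20 S.r20_eq_zero_iff S.ci_J2qq_mem20
      (by rw [ci_r20_J2qq]; exact pow_ne_zero _ (S.ci_jb_one_pow_ne_zero _))
  · exact cuspAux_val_eq_one S.r11 S.r11_eq_zero_iff S.ci_J2qq_mem11
      (by rw [ci_r11_J2qq]; exact S.jb_ne_zero 1)
  · exact cuspAux_val_eq_one S.r02 S.r02_eq_zero_iff S.ci_J2qq_mem02
      (by rw [ci_r02_J2qq]; exact S.jb_ne_zero 1)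

theorem valCusp_ne_zero_of_unit {x : S.F2} (h : (S.VV 0).valuation x = 1) : x ≠ 0 := by
  rintro rfl
  rw [map_zero] at h
  exact zero_ne_one h

theorem J2one_ne_zero : S.J2one ≠ 0 := S.valCusp_ne_zero_of_unit (S.J2one_unit 0)

theorem J2q_ne_zero : S.J2q ≠ 0 := S.valCusp_ne_zero_of_unit (S.J2q_unit 0)

theorem J2qq_ne_zero : S.J2qq ≠ 0 := S.valCusp_ne_zero_of_unit (S.J2qq_unit 0)

theorem J2one_ne_J2qq : S.J2one ≠ S.J2qq := by
  intro h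
  have h1 : (⟨S.J2one, S.ci_J2one_mem20⟩ : S.V20) = ⟨S.J2qq, S.ci_J2qq_mem20⟩ := Subtype.ext h
  have h2 := congrArg S.r20 h1
  rw [ci_r20_J2one, ci_r20_J2qq, ← jb_q_mul, ← jb_q_mul] at h2
  have h3 := congrArg HahnSeries.order h2
  rw [order_jb, order_jb] at h3
  have h4 : 2 ≤ S.q := S.hq.two_le
  have h5 : ((1 : ℕ) : ℤ) = ((S.q * (S.q * 1) : ℕ) : ℤ) := neg_injective h3
  have h6 : 1 = S.q * (S.q * 1) := by exact_mod_cast h5
  nlinarith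

/-! the six congruences of `CuspData` for `s = 1/j`, `s' = 1/j'`, `s'' = 1/j''` -/

theorem cong0 : (S.VV 0).valuation (S.J2one⁻¹ ^ S.q / S.J2q⁻¹ - 1) < 1 := S.ci_cusp_cong0

theorem cong0' : (S.VV 0).valuation (S.J2q⁻¹ ^ S.q / S.J2qq⁻¹ - 1) < 1 := S.ci_cusp_cong0'

theorem cong1 : (S.VV 1).valuation (S.J2one⁻¹ ^ S.q / S.J2q⁻¹ - 1) < 1 := S.ci_cusp_cong1

theorem cong1' : (S.VV 1).valuation (S.J2qq⁻¹ ^ S.q / S.J2q⁻¹ - 1) < 1 := S.ci_cusp_cong1'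

theorem cong2 : (S.VV 2).valuation (S.J2q⁻¹ ^ S.q / S.J2one⁻¹ - 1) < 1 := S.ci_cusp_cong2

theorem cong2' : (S.VV 2).valuation (S.J2qq⁻¹ ^ S.q / S.J2q⁻¹ - 1) < 1 := S.ci_cusp_cong2'

/-! helper98's forms -/

theorem valCusp_sq_pos : S.q ^ 2 - 1 + 1 = S.q ^ 2 :=
  Nat.sub_add_cancel (Nat.one_le_pow _ _ S.hq.pos)

theorem cusp0 : (S.VV 0).valuation
    (S.ib S.j0 / S.ia S.j0 * (S.ia S.j0)⁻¹ ^ (S.q ^ 2 - 1) - 1) < 1 := by
  rw [ib_j0, ia_j0]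
  have h := cuspAux_cong S.r20 S.r20_eq_zero_iff S.ci_J2qq_mem20 S.ci_J2one_mem20 (S.q ^ 2)
    (by rw [ci_r20_J2one]; exact S.jb_ne_zero 1) (by rw [ci_r20_J2qq, ci_r20_J2one, ← pow_mul, sq])
  have e : S.J2qq / S.J2one * S.J2one⁻¹ ^ (S.q ^ 2 - 1) = S.J2one⁻¹ ^ (S.q ^ 2) / S.J2qq⁻¹ := by
    have e1 : S.J2one⁻¹ ^ (S.q ^ 2) = S.J2one⁻¹ ^ (S.q ^ 2 - 1) * S.J2one⁻¹ := by
      rw [← pow_succ, S.valCusp_sq_pos]
    rw [e1, div_inv_eq_mul, div_eq_mul_inv]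
    ring
  rw [e]
  exact h

theorem cusp1 : (S.VV 1).valuation (S.ib S.j0 / S.ia S.j0 - 1) < 1 := by
  rw [ib_j0, ia_j0]
  have h := cuspAux_cong S.r11 S.r11_eq_zero_iff S.ci_J2qq_mem11 S.ci_J2one_mem11 1
    (by rw [ci_r11_J2one]; exact S.jb_ne_zero 1) (by rw [ci_r11_J2qq, ci_r11_J2one, pow_one])
  have e : S.J2qq / S.J2one = S.J2one⁻¹ ^ 1 / S.J2qq⁻¹ := by
    rw [pow_one, div_inv_eq_mul, div_eq_mul_inv, mul_comm]
  rw [e]
  exact h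

theorem cusp2 : (S.VV 2).valuation
    (S.ib S.j0 / S.ia S.j0 - (S.ib S.j0)⁻¹ ^ (S.q ^ 2 - 1)) < 1 := by
  rw [ib_j0, ia_j0]
  have h := cuspAux_cong S.r02 S.r02_eq_zero_iff S.ci_J2one_mem02 S.ci_J2qq_mem02 (S.q ^ 2)
    (by rw [ci_r02_J2qq]; exact S.jb_ne_zero 1) (by rw [ci_r02_J2one, ci_r02_J2qq, ← pow_mul, sq])
  have h0 := S.J2qq_ne_zero
  have h1 := S.J2one_ne_zero
  have e : S.J2qq / S.J2one - S.J2qq⁻¹ ^ (S.q ^ 2 - 1) =
      - (S.J2qq / S.J2one) * (S.J2qq⁻¹ ^ (S.q ^ 2) / S.J2one⁻¹ - 1) := by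
    have e1 : S.J2qq⁻¹ ^ (S.q ^ 2) = S.J2qq⁻¹ ^ (S.q ^ 2 - 1) * S.J2qq⁻¹ := by
      rw [← pow_succ, S.valCusp_sq_pos]
    rw [e1, div_inv_eq_mul]
    field_simp
    ring
  have hv : (S.VV 2).valuation (- (S.J2qq / S.J2one)) = 1 := by
    rw [Valuation.map_neg, map_div₀, S.J2qq_unit 2, S.J2one_unit 2, div_one]
  rw [e, map_mul, hv, one_mul]
  exact h

end Fermat.Agent.S36.Mod.Setup

end
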