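/-
S36, modular part (sub-architect helper156).  (task S36-MOD-VAL1a)

LEVEL `N0 q` OVER LEVEL `N0`: the two vertical valuations `V1oo` (`e = f = 1`) and `V10`
(`e = 1`, `f = q`), completeness and density, by `Count.count` with `F₀ = F0`, `F = F1` (through
`al0`), `V₀ = V0`, `ϖ = q`, `V = ![V1oo, V10]`, `a = ![1, 1]`, `b = ![1, q]`, `τ = ![q, q]`,
`y 0 _ = 1`, `y 1 s = J_q ^ s`  (`r10 (J_q) = jb 1` has order `-1` and `r10 (al0 c)` is a series in
`t^q`: `ThetaField.indep_pow`).  Model of the proof: `HalfInst/Main.count_V11`.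
-/
import Fermat.Agent.S36.Mod.VV
import Fermat.Agent.S36.Mod.Table
import Fermat.Agent.S36.Mod.ThetaField
import Fermat.Agent.S36.Mod.HalfInst.Complete
import Fermat.Agent.GAL.E.Degree

set_option autoImplicit false
set_option linter.unusedSectionVars false

noncomputable section

namespace Fermat.Agent.S36.Mod.Setup

open ModularCurve Fermat.Agent.S24 Fermat.Agent.S18 Fermat.Agent.S36.Norm

variable {K K' : Type*} [Field K] [Field K'] [Algebra ℚ K] [Algebra ℚ K'] [Algebra K Kbar]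
  [Algebra K' Kbar] (S : Setup K K')

theorem isUnif_V0 : IsUnif S.V0 ((S.q : ℕ) : S.F0) := S.Unif_isUnif_val S.e0

-- `V1oo_ne_V10 : S.V1oo ≠ S.V10` is PROVED in `HalfInst/Complete.lean` (imported).

/-- `dg_alphaK` + `GAL.E.finrank_algAlpha` (or `S36.Norm.dg_inc_of_not_dvd`). -/
theorem dg_al0 : dg S.al0.toRingHom = S.q + 1 := by
  rw [al0, dg_alphaK, heckeAlphaBar_eq_inc]
  exact dg_inc_of_not_dvd S.hq S.hqN

end Fermat.Agent.S36.Mod.Setup

end
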