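/-
S36, modular part (sub-architect helper156).  (task S36-MOD-VAL1b)

LEVEL `N0 q` OVER LEVEL `N0`: the two vertical valuations `V1oo` (`e = f = 1`) and `V10`
(`e = 1`, `f = q`), completeness and density, by `Count.count` with `F₀ = F0`, `F = F1` (through
`al0`), `V₀ = V0`, `ϖ = q`, `V = ![V1oo, V10]`, `a = ![1, 1]`, `b = ![1, q]`, `τ = ![q, q]`,
`y 0 _ = 1`, `y 1 s = J_q ^ s`  (`r10 (J_q) = jb 1` has order `-1` and `r10 (al0 c)` is a series in
`t^q`: `ThetaField.indep_pow`).  Model of the proof: `HalfInst/Main.count_V11`.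
-/
import Fermat.Agent.S36.Mod.Val.Level1a
import Fermat.Agent.S36.Mod.Dense1
import Fermat.Agent.BAD.LevelQ.Mod.Setup

set_option autoImplicit false
set_option linter.unusedSectionVars false

noncomputable section

namespace Fermat.Agent.S36.Mod

/-- abstract transport of completeness along an involution. -/
theorem complete_transport {K F₀ F : Type*} [Field K] [Field F₀] [Field F] [Algebra K F₀]
    [Algebra K F] (V₀ : ValuationSubring F₀) (V V' : ValuationSubring F) (w : F →ₐ[K] F)
    (al be : F₀ →ₐ[K] F) (hV : V.comap w.toRingHom = V') (hV' : V'.comap w.toRingHom = V)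
    (hw : ∀ f, w (al f) = be f) (hww : ∀ y, w (w y) = y)
    (hc : ∀ W : ValuationSubring F, W.comap al.toRingHom = V₀ → W = V ∨ W = V')
    (W : ValuationSubring F) (hW : W.comap be.toRingHom = V₀) : W = V ∨ W = V' := by
  have h1 : (W.comap w.toRingHom).comap al.toRingHom = V₀ := by
    rw [← hW]
    ext f
    show w (al f) ∈ W ↔ be f ∈ W
    rw [hw]
  have h2 : (W.comap w.toRingHom).comap w.toRingHom = W := by
    ext y
    show w (w y) ∈ W ↔ y ∈ W
    rw [hww]
  rcases hc _ h1 with h | h
  · right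
    rw [← h2, h, hV]
  · left
    rw [← h2, h, hV']

end Fermat.Agent.S36.Mod

namespace Fermat.Agent.S36.Mod.Setup

open ModularCurve Fermat.Agent.S24 Fermat.Agent.S18 Fermat.Agent.S36.Norm

variable {K K' : Type*} [Field K] [Field K'] [Algebra ℚ K] [Algebra ℚ K'] [Algebra K Kbar]
  [Algebra K' Kbar] (S : Setup K K')

-- `complete1` : see `BAD/LevelQ/Mod/Setup.lean` (same statement, proved).

theorem dense1oo : ∀ y ∈ S.V1oo, ∃ r : S.F0, S.V1oo.valuation (S.al0 r - y) < 1 :=
  S.dense1.oo

/-- from `dense1oo` by the involution `w1` (`V10 = V1oo.comap w1`, `w1 ∘ al0 = be0`). -/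
theorem dense10 : ∀ y ∈ S.V10, ∃ r : S.F0, S.V10.valuation (S.be0 r - y) < 1 :=
  S.dense1.zero

/-- completeness relative to `be0`, by `w1`. -/
theorem complete1' (W : ValuationSubring S.F1) (hW : W.comap S.be0.toRingHom = S.V0) :
    W = S.V1oo ∨ W = S.V10 :=
  complete_transport S.V0 S.V1oo S.V10 S.w1 S.al0 S.be0 S.V1oo_comap_w1 S.V10_comap_w1 S.w1_al0
    S.w1_w1 S.complete1 W hW

end Fermat.Agent.S36.Mod.Setup

end
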